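import Mathlib
import Fermat.Agent.LT.A2.H54.LocFinSpec

/-!
# Row LT, tower A2, leaf A2.03.1.1.06.17 (`LF54.LeafAxDiag`) -- helper863, OFF-MAIN

**`leafAxDiag_863 : Fermat.Agent.LT.A2.LF54.LeafAxDiag`**, VERBATIM against
`Fermat/Agent/LT/A2/H54/LocFinSpec.lean` (helper54, sha256 8ccd9c5c6ed3304a).

The field `diag` of `LocAx` for the family `Fof Φ g m = L(m) r(d(det m)⁻¹ g) Φ`:
`d(δ)⁻¹ t(a) = t(a) d(δ)⁻¹` (diagonal matrices commute), the left rule `BorelOpP.diag` of `rOp`,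
and `m⁻¹ (a ξ) = a (m⁻¹ ξ)`.  Proved for every normed field (`axDiag_863`); `Ctx` is not used.

Mathlib + the frozen Spec closure only; every proof is complete.
-/

set_option autoImplicit false

open IsDedekindDomain NumberField MeasureTheory

noncomputable section

namespace Fermat.Agent.LT.A2.H863

open Fermat.Agent.LT.A2 Fermat.Agent.LT.A2.WX467 Fermat.Agent.LT.A2.LF54

theorem diag_comm_863 {k : Type} [Field k] (a δ : k) (g : Matrix (Fin 2) (Fin 2) k) :
    !![1, 0; 0, δ] * (!![a, 0; 0, a⁻¹] * g) = !![a, 0; 0, a⁻¹] * (!![1, 0; 0, δ] * g) := by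
  rw [← Matrix.mul_assoc, ← Matrix.mul_assoc]
  congr 1
  ext i j
  fin_cases i <;> fin_cases j <;> simp [Matrix.mul_apply, Fin.sum_univ_two, mul_comm]

theorem actL_smul_863 {k : Type} [Field k] (m : Matrix (Fin 2) (Fin 2) k) (a : k) (ξ : k × k) :
    actL m (a • ξ) = a • actL m ξ := by
  unfold actL
  ext
  · simp only [Prod.smul_fst, Prod.smul_snd, smul_eq_mul]
    ring
  · simp only [Prod.smul_fst, Prod.smul_snd, smul_eq_mul]
    ring

/-- The field `diag` for `Fof`, over any normed field. -/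
theorem axDiag_863 {k : Type} [NormedField k] (t n : k) (ψ : k → ℂ) (μ : @Measure k (borel k))
    (γ : ℂ) (η : k → ℂ) (hB : BorelOpP t n ψ μ γ η) (Φ : k × k → ℂ) (hΦ : IsSB Φ) :
    AxDiagP t n η (Fof t n ψ μ γ η Φ) := by
  intro a ha g m ξ hadm
  obtain ⟨-, hdet, hdet0⟩ := hadm
  have hdet1 : (!![1, 0; 0, (m.det)⁻¹] * g).det = 1 := by
    rw [Matrix.det_mul, Matrix.det_fin_two_of, hdet, one_mul, mul_zero, sub_zero,
      inv_mul_cancel₀ hdet0]
  unfold Fof lopL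
  rw [diag_comm_863, hB.diag a ha _ hdet1 Φ hΦ, actL_smul_863]
  ring

/-- **Leaf 17 AX-DIAG.** -/
theorem leafAxDiag_863 : LeafAxDiag := by
  intro K _ _ v t n ψ μ γ η _ hB Φ hΦ
  exact axDiag_863 t n ψ μ γ η hB Φ hΦ

end Fermat.Agent.LT.A2.H863

end
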